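import Fermat.Agent.Root.Attached
import Fermat.Agent.GalRep.CoeffRing

/-!
# Spreading a congruence to all good primes

A congruence between an eigenform and `W` outside a finite set of primes holds at every good prime
away from the level (`exists_congr_of_congr_outside`): the two residual representations have the
same characteristic polynomials by Chebotarev.
-/

set_option autoImplicit false

noncomputable section

namespace Fermat.Agent.ResidualLevel

open WeierstrassCurve Polynomial IsLocalRing ModularFormClass CongruenceSubgroup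
open scoped WeierstrassCurve.Affine

local notation "ℚbar" => AlgebraicClosure ℚ
local notation "Γℚbar" => AlgebraicClosure ℚ ≃ₐ[ℚ] AlgebraicClosure ℚ

/-- **The congruence spreads to all good primes away from the level.** -/
theorem exists_congr_of_congr_outside (W : WeierstrassCurve ℤ) (hΔ : W.Δ ≠ 0) (p : ℕ)
    [Fact p.Prime] {M : ℕ} [NeZero M] {g : CuspForm (Gamma0 M) 2} (hg : g.IsNormalizedEigenform)
    {𝔪 : Ideal (integralClosure ℤ ℂ)} (h𝔪 : 𝔪.IsMaximal) (hp𝔪 : (p : integralClosure ℤ ℂ) ∈ 𝔪)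
    (S : Finset ℕ)
    (hS : ∀ ℓ : ℕ, ℓ.Prime → ℓ ∉ S → W.IsGoodPrimeFor ℓ → ¬ ℓ ∣ M → ℓ ≠ p →
      ∃ a : integralClosure ℤ ℂ, (a : ℂ) = qCoeff ⇑g ℓ ∧
        a - ((W.apOfModel ℓ : ℤ) : integralClosure ℤ ℂ) ∈ 𝔪)
    {r : ℕ} (hr : r.Prime) (hgood : W.IsGoodPrimeFor r) (hrM : ¬ r ∣ M) (hrp : r ≠ p) :
    ∃ a : integralClosure ℤ ℂ, (a : ℂ) = qCoeff ⇑g r ∧
      a - ((W.apOfModel r : ℤ) : integralClosure ℤ ℂ) ∈ 𝔪 := by
  have hp : p.Prime := Fact.out
  have := Fermat.Agent.S22.result M 2 ∅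
  let κ := GalRep.eigenCharacterInt hg
  let a : ℕ → integralClosure ℤ ℂ := fun n => κ (Hecke.heckeTn M n)
  have ha : ∀ n, (a n : ℂ) = qCoeff ⇑g n := fun n => Hecke.eigenCharacter_heckeTn hg n
  refine ⟨a r, ha r, ?_⟩
  have hκ : Module.Finite ℤ κ.range :=
    Module.Finite.of_surjective κ.rangeRestrict.toIntAlgHom.toLinearMap κ.rangeRestrict_surjective
  let R := Subring.closure (Set.range a)
  have hR : R ≤ κ.range := Subring.closure_le.mpr (by rintro _ ⟨n, rfl⟩; exact ⟨_, rfl⟩)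
  have : IsNoetherian ℤ κ.range := isNoetherian_of_isNoetherianRing_of_finite ℤ κ.range
  have : Module.Finite ℤ R :=
    Module.Finite.of_injective (Subring.inclusion hR).toIntAlgHom.toLinearMap
      (Subring.inclusion_injective hR)
  let P : Ideal R := 𝔪.comap R.subtype
  have : P.IsPrime := Ideal.IsPrime.comap _
  have hpP : (p : R) ∈ P := by
    show R.subtype (p : R) ∈ 𝔪
    rwa [map_natCast]
  obtain ⟨O₀, _, _, _, _, _, _, ι, hpO₀, hι⟩ := GalRep.exists_coeff_ring p R P hpP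
  obtain ⟨O, _, _, _, _, _, _, j, -, hj, ρ, -, hρ, -⟩ :=
    Root.exists_attached M g hg a ha p O₀ hpO₀ ι
  have := hj
  have hmem : ∀ x : O₀, x ∈ maximalIdeal O₀ → j x ∈ maximalIdeal O := fun x hx => map_nonunit j x hx
  have hpO : (p : O) ∈ maximalIdeal O := by simpa using hmem _ hpO₀
  have : CharP (ResidueField O) p := (CharP.charP_iff_prime_eq_zero hp).mpr (by
    rw [← map_natCast (residue O), residue_eq_zero_iff]; exact hpO)
  let : Algebra (ZMod p) (ResidueField O) :=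
    (ZMod.castHom (dvd_refl p) (ResidueField O)).toAlgebra
  have := EC.Frobenius.isElliptic_map_rat hΔ
  set E := W.map (Int.castRingHom ℚ)
  have hcard := Isogeny.card_torsionBy_baseChange (K := ℚbar) E (n := p)
    (Nat.cast_ne_zero.mpr hp.ne_zero)
  have hker := EC.Frobenius.galoisFactorsThroughFiniteLevel_torsion E hp.ne_zero
  set RE := E.residualGaloisRepOf p hcard hker
  set R' := RE.baseChangeAlong (ZMod.castHom (dvd_refl p) (ResidueField O))
  have hcp : ∀ ℓ : ℕ, ℓ.Prime → W.IsGoodPrimeFor ℓ → ℓ ≠ p → ∀ A : ValuationSubring ℚbar,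
      A.LiesOverPrime ℓ → ∀ τ : Γℚbar, A.IsFrobeniusAt τ ℓ → LinearMap.charpoly (R'.ρ τ) =
        X ^ 2 - C (W.apOfModel ℓ : ResidueField O) * X + C (ℓ : ResidueField O) := by
    intro ℓ hℓ hgd hℓp A hA τ hτ
    have hR : LinearMap.charpoly (RE.ρ τ) =
        X ^ 2 - C (W.apOfModel ℓ : ZMod p) * X + C (ℓ : ZMod p) := by
      have := EC.Frobenius.moduleFinite_torsion E p
      exact (EC.Frobenius.trace_det_charpoly_of_isIntegralModelOf
        (EC.Frobenius.isIntegralModelOf_map W) hℓ hgd (Ne.symm hℓp) hA hτ).2.2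
    change LinearMap.charpoly ((RE.ρ τ).baseChange (ResidueField O)) = _
    rw [LinearMap.charpoly_baseChange, hR]
    simp [Polynomial.map_sub, Polynomial.map_add, Polynomial.map_mul, Polynomial.map_pow]
  have hgen : ∀ ℓ : ℕ, ℓ.Prime → ¬ ℓ ∣ M → ℓ ≠ p → ∀ A : ValuationSubring ℚbar,
      A.LiesOverPrime ℓ → ∀ τ : Γℚbar, A.IsFrobeniusAt τ ℓ →
        LinearMap.charpoly (ρ.residual.ρ τ) = X ^ 2 -
          C (residue O (j (ι ⟨a ℓ, Subring.subset_closure ⟨ℓ, rfl⟩⟩))) * X +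
          C (ℓ : ResidueField O) := by
    intro ℓ hℓ hℓM hℓp A hA τ hτ
    change LinearMap.charpoly ((ρ.ρ τ).baseChange (ResidueField O)) = _
    rw [LinearMap.charpoly_baseChange, (hρ ℓ hℓ (fun hd => (hℓ.dvd_mul.mp hd).elim hℓM fun hd' =>
      hℓp ((Nat.prime_dvd_prime_iff_eq hℓ hp).mp hd')) A hA).2 τ hτ]
    simp [Polynomial.map_sub, Polynomial.map_add, Polynomial.map_mul, Polynomial.map_pow,
      ResidueField.algebraMap_eq]
  obtain ⟨A, hA⟩ := Gal.exists_liesOverPrime (L := ℚbar) hr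
  obtain ⟨σ, hσ⟩ := Gal.exists_isFrobeniusAt hr hA
  have hres : LinearMap.charpoly (R'.ρ σ) = LinearMap.charpoly (ρ.residual.ρ σ) := by
    refine Density.residual_charpoly_eq_of_forall_frobenius R' ρ.residual
      ↑(insert p (S ∪ M.primeFactors ∪ W.Δ.natAbs.primeFactors))
      (Finset.finite_toSet _) (fun ℓ hℓ hℓS B hB τ hτ => ?_) σ
    simp only [Finset.coe_insert, Finset.coe_union, Set.mem_insert_iff, Set.mem_union,
      Finset.mem_coe, Nat.mem_primeFactors, not_or] at hℓS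
    have hℓM : ¬ ℓ ∣ M := fun hd => hℓS.2.1.2 ⟨hℓ, hd, NeZero.ne M⟩
    have hgd : W.IsGoodPrimeFor ℓ := fun hd =>
      hℓS.2.2 ⟨hℓ, Int.natCast_dvd.mp hd, Int.natAbs_ne_zero.mpr hΔ⟩
    obtain ⟨b, hb, hbW⟩ := hS ℓ hℓ hℓS.2.1.1 hgd hℓM hℓS.1
    obtain rfl : b = a ℓ := Subtype.ext (hb.trans (ha ℓ).symm)
    set x : R := ⟨a ℓ, Subring.subset_closure ⟨ℓ, rfl⟩⟩
    have hx : x - (W.apOfModel ℓ : R) ∈ P := by
      show R.subtype (x - (W.apOfModel ℓ : R)) ∈ 𝔪
      rw [map_sub, map_intCast]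
      exact hbW
    have h1 := hmem _ ((hι _).mpr hx)
    rw [map_sub, map_sub, map_intCast, map_intCast] at h1
    have h2 : residue O (j (ι x)) = (W.apOfModel ℓ : ResidueField O) := by
      rw [← map_intCast (residue O), ← sub_eq_zero, ← map_sub]
      exact (residue_eq_zero_iff _).mpr h1
    rw [hcp ℓ hℓ hgd hℓS.1 B hB τ hτ, hgen ℓ hℓ hℓM hℓS.1 B hB τ hτ, h2]
  rw [hcp r hr hgood hrp A hA σ hσ, hgen r hr hrM hrp A hA σ hσ] at hres
  set y : R := ⟨a r, Subring.subset_closure ⟨r, rfl⟩⟩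
  have e1 : (W.apOfModel r : ResidueField O) = residue O (j (ι y)) := by
    simpa [Polynomial.coeff_X_pow, neg_inj] using
      congrArg (fun q : (ResidueField O)[X] => q.coeff 1) hres
  have h1 : j (ι (y - (W.apOfModel r : R))) ∈ maximalIdeal O := by
    rw [← residue_eq_zero_iff, map_sub, map_sub, map_sub, map_intCast, map_intCast, map_intCast,
      e1, sub_self]
  have h2 : ι (y - (W.apOfModel r : R)) ∈ maximalIdeal O₀ := fun hu => h1 (hu.map j)
  have h3 := (hι _).mp h2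
  change R.subtype (y - (W.apOfModel r : R)) ∈ 𝔪 at h3
  rwa [map_sub, map_intCast] at h3

end Fermat.Agent.ResidualLevel
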