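import Fermat.Agent.MazurPrinciple.Stabilise
import Mathlib.Data.Nat.Squarefree

/-!
# An eigenform seen at every squarefree multiple of its level

Raise the level one prime at a time (`exists_eigenform_of_dvd`).
-/

set_option autoImplicit false

noncomputable section

namespace Fermat.Agent.ResidualLevel

open ModularFormClass CongruenceSubgroup

/-- An eigenform of level `M` gives one of any squarefree level `L` divisible by `M` with the same
coefficients at the primes away from `L`. -/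
theorem exists_eigenform_of_dvd {M : ℕ} {f : CuspForm (Gamma0 M) 2}
    (hf : f.IsNormalizedEigenform) :
    ∀ L : ℕ, Squarefree L → M ∣ L → ∃ g : CuspForm (Gamma0 L) 2, g.IsNormalizedEigenform ∧
      ∀ l : ℕ, l.Prime → ¬ l ∣ L → qCoeff ⇑g l = qCoeff ⇑f l := by
  intro L
  induction L using Nat.strong_induction_on with
  | _ L ih =>
    intro hL hML
    by_cases hne : M = L
    · subst hne
      exact ⟨f, hf, fun _ _ _ => rfl⟩
    obtain ⟨c, hc⟩ := hML
    have hc1 : c ≠ 1 := fun h => hne (by rw [hc, h, mul_one])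
    obtain ⟨r, hr, c', hc'⟩ := Nat.exists_prime_and_dvd hc1
    obtain ⟨L₁, rfl⟩ : ∃ L₁, L = L₁ * r := ⟨M * c', by rw [hc, hc']; ring⟩
    have hL0 : L₁ * r ≠ 0 := hL.ne_zero
    have : NeZero (L₁ * r) := ⟨hL0⟩
    have : NeZero L₁ := ⟨left_ne_zero_of_mul hL0⟩
    have hrL : ¬ r ∣ L₁ := fun h => hr.not_isUnit (hL r (mul_dvd_mul_right h r))
    have hML₁ : M ∣ L₁ := ⟨c', Nat.eq_of_mul_eq_mul_right hr.pos (by rw [hc, hc']; ring)⟩
    obtain ⟨g, hg, hgf⟩ := ih L₁ (lt_mul_of_one_lt_right (Nat.pos_of_ne_zero (NeZero.ne L₁))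
      hr.one_lt) (hL.squarefree_of_dvd (dvd_mul_right _ _)) hML₁
    obtain ⟨g', hg', hg'g⟩ := MazurPrinciple.exists_eigenform_raise hr hrL hg
    refine ⟨g', hg', fun l hl hlL => ?_⟩
    rw [hg'g l hl fun e => hlL (e ▸ dvd_mul_left r L₁), hgf l hl fun h => hlL (h.mul_right r)]

end Fermat.Agent.ResidualLevel
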