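import Fermat.Agent.Root.SemistableModular
import Fermat.Agent.Root.ResidualAtP
import Fermat.Agent.ResidualLevel.Congr
import Fermat.Agent.ResidualLevel.Raise
import Fermat.Prelude.Def_GaloisRep_Residual

/-!
# Level lowering at squarefree levels

For a semistable curve that is residually modular of squarefree level `M`, a prime `q ∣ M` at which
the residual representation is unramified can be removed from the level
(`isResiduallyModularOfLevel_div`).
-/

set_option autoImplicit false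

noncomputable section

namespace Fermat.Agent.ResidualLevel

open WeierstrassCurve ModularFormClass CongruenceSubgroup
open scoped WeierstrassCurve.Affine

variable {W : WeierstrassCurve ℤ} {p : ℕ}

/-- A residual newform shows at every squarefree multiple of its level. -/
theorem isResiduallyModularOfLevel_of_resNewform {M L : ℕ} (h : Root.ResNewform p W M)
    (hL : Squarefree L) (hML : M ∣ L) : W.IsResiduallyModularOfLevel p L := by
  obtain ⟨f, 𝔪, hf, h𝔪, hp𝔪, hfW, -⟩ := h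
  obtain ⟨g, hg, hgf⟩ := exists_eigenform_of_dvd hf.1 L hL hML
  refine ⟨g, 𝔪, hg, h𝔪, hp𝔪, fun ℓ hℓ hgood hℓL hℓp => ?_⟩
  rw [hgf ℓ hℓ hℓL]
  exact hfW ℓ hℓ hgood (fun hd => hℓL (hd.trans hML)) hℓp

variable [Fact p.Prime]

/-- A prime at which the residual representation is ramified divides the level. -/
theorem dvd_of_not_unramified (hW : Root.Semistable W) (hp2 : p ≠ 2)
    (hirr : W.ModRepIsIrreducible p) {M : ℕ} [NeZero M] (h : W.IsResiduallyModularOfLevel p M)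
    {q : ℕ} (hq : q.Prime) (hqp : q ≠ p) (hram : ¬ Root.UnramifiedMod p W q) : q ∣ M := by
  by_contra hqM
  obtain ⟨f, 𝔪, hf, h𝔪, hp𝔪, hfW⟩ := h
  obtain ⟨O, _, _, hpO, ρ, hunr, hfrob⟩ := RootResidual.exists_rep hf p 𝔪 h𝔪 hp𝔪
  exact hram (RootResidual.unramifiedMod_of_residual W hW.ne p hp2 hirr hpO ρ M.primeFactors
    (fun ℓ hℓ hℓS hgood hℓp A hA τ hτ => by
      have hℓM : ¬ ℓ ∣ M := fun hd => hℓS (Nat.mem_primeFactors.mpr ⟨hℓ, hd, NeZero.ne M⟩)
      exact hfrob ℓ hℓ hℓM hℓp _ (hfW ℓ hℓ hgood hℓM hℓp) A hA τ hτ) (hunr q hq hqM hqp))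

/-- The newform under an eigenform of level prime to `p`. -/
theorem exists_resNewform_dvd (hW : Root.Semistable W) (hp2 : p ≠ 2)
    {M : ℕ} [NeZero M] (hpM : ¬ p ∣ M) (h : W.IsResiduallyModularOfLevel p M) :
    ∃ M₀ : ℕ, M₀ ∣ M ∧ Root.ResNewform p W M₀ := by
  obtain ⟨f, 𝔪, hf, h𝔪, hp𝔪, hfW⟩ := h
  obtain ⟨M₀, hd, g, hg, hga⟩ := Newform.exists_isNewform_goodEigensystem hf
  have : NeZero M₀ := ⟨fun h => NeZero.ne M (by subst h; simpa using hd)⟩
  have hcong : ∀ ℓ : ℕ, ℓ.Prime → W.IsGoodPrimeFor ℓ → ¬ ℓ ∣ M₀ → ℓ ≠ p →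
      ∃ a : integralClosure ℤ ℂ, (a : ℂ) = qCoeff ⇑g ℓ ∧
        a - ((W.apOfModel ℓ : ℤ) : integralClosure ℤ ℂ) ∈ 𝔪 := fun r hr hgood hrM hrp =>
    exists_congr_of_congr_outside W hW.ne p hg.1 h𝔪 hp𝔪 M.primeFactors
      (fun ℓ hℓ hℓS hgd _ hℓp => by
        have hℓM : ¬ ℓ ∣ M := fun hd => hℓS (Nat.mem_primeFactors.mpr ⟨hℓ, hd, NeZero.ne M⟩)
        rw [hga ℓ hℓ hℓM]
        exact hfW ℓ hℓ hgd hℓM hℓp) hr hgood hrM hrp
  exact ⟨M₀, hd, g, 𝔪, hg, h𝔪, hp𝔪, hcong, fun hpΔ =>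
    Root.exists_coeff_sq_sub_one_mem W hW p Fact.out hp2 hpΔ hg.1 𝔪 h𝔪 hp𝔪
      (fun h => hpM (h.trans hd)) hcong⟩

/-- The residual newform of the curve itself. -/
theorem exists_resNewform_self (hW : Root.Semistable W) (hp2 : p ≠ 2)
    (hirr : W.ModRepIsIrreducible p) :
    ∃ M : ℕ, M ∣ W.conductorLevel ∧ Root.ResNewform p W M :=
  Root.resNewform_of_modular W W hW hW p Fact.out hp2 hirr
    (fun _ _ _ _ _ => by rw [sub_self]; exact dvd_zero _) Iff.rfl (Root.semistable_modular W hW)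

/-- **Level lowering.** -/
theorem isResiduallyModularOfLevel_div (hW : Root.Semistable W) (hp2 : p ≠ 2)
    (hirr : W.ModRepIsIrreducible p)
    {M q : ℕ} (hM : Squarefree M) (hq : q.Prime) (hqM : q ∣ M) (hqp : q ≠ p)
    (hunr : Root.UnramifiedMod p W q) (h : W.IsResiduallyModularOfLevel p M) :
    W.IsResiduallyModularOfLevel p (M / q) := by
  classical
  have hp : p.Prime := Fact.out
  have : NeZero M := ⟨hM.ne_zero⟩
  have hsq : Squarefree (M / q) := hM.squarefree_of_dvd (Nat.div_dvd_of_dvd hqM)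
  -- a minimal residual level all of whose primes divide `M`
  obtain ⟨M', h', hd⟩ : ∃ M' : ℕ, Root.ResNewform p W M' ∧ Squarefree M' ∧
      ∀ l : ℕ, l.Prime → l ∣ M' → l ≠ q ∧ l ∣ M := by
    by_cases hpM : p ∣ M
    · obtain ⟨M₁, hd₁, h₁⟩ := exists_resNewform_self hW hp2 hirr
      have hsq₁ : Squarefree M₁ := W.squarefree_conductorLevel.squarefree_of_dvd hd₁
      obtain ⟨M', hd, h', hall⟩ := Root.exists_minimal_level W hW p hp hp2 hirr M₁ hsq₁ (fun hp₁ =>
        (W.prime_dvd_conductorLevel_iff hW.ne hp).mp (hp₁.trans hd₁)) h₁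
      refine ⟨M', h', hsq₁.squarefree_of_dvd hd, fun l hl hlM' => ?_⟩
      by_cases hlp : l = p
      · exact ⟨fun e => hqp (e.symm.trans hlp), hlp ▸ hpM⟩
      · exact ⟨fun e => hall l hl hlM' hlp (e ▸ hunr),
          dvd_of_not_unramified hW hp2 hirr h hl hlp (hall l hl hlM' hlp)⟩
    · obtain ⟨M₀, hd₀, h₀⟩ := exists_resNewform_dvd hW hp2 hpM h
      obtain ⟨M', hd, h', hall⟩ := Root.exists_minimal_level W hW p hp hp2 hirr M₀
        (hM.squarefree_of_dvd hd₀)
        (fun h => absurd (h.trans hd₀) hpM) h₀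
      refine ⟨M', h', hM.squarefree_of_dvd (hd.trans hd₀), fun l hl hlM' => ⟨fun e => ?_,
        hlM'.trans (hd.trans hd₀)⟩⟩
      exact hall l hl hlM' (fun e' => hqp (e.symm.trans e')) (e ▸ hunr)
  refine isResiduallyModularOfLevel_of_resNewform h' hsq ?_
  have hMM' : M' ∣ M := by
    rw [← Nat.prod_primeFactors_of_squarefree hd.1, ← Nat.prod_primeFactors_of_squarefree hM]
    exact Finset.prod_dvd_prod_of_subset _ _ _ fun l hl => by
      obtain ⟨hlp, hlM', -⟩ := Nat.mem_primeFactors.mp hl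
      exact Nat.mem_primeFactors.mpr ⟨hlp, (hd.2 l hlp hlM').2, hM.ne_zero⟩
  have hqM' : ¬ q ∣ M' := fun h => (hd.2 q hq h).1 rfl
  exact Nat.Coprime.dvd_of_dvd_mul_right ((hq.coprime_iff_not_dvd.mpr hqM').symm)
    (by rwa [Nat.div_mul_cancel hqM])

/-- Unramifiedness of the residual representation. -/
theorem unramifiedMod_of_isUnramifiedAt
    (hcard : Nat.card (Submodule.torsionBy ℤ
      ((W.map (Int.castRingHom ℚ))⁄(AlgebraicClosure ℚ)).Point p) = p ^ 2)
    (hker : GaloisFactorsThroughFiniteLevel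
      (WeierstrassCurve.Affine.Point.galoisRepModuleEnd (K := AlgebraicClosure ℚ) ℚ
        (W.map (Int.castRingHom ℚ)) p)) {q : ℕ}
    (h : ((W.map (Int.castRingHom ℚ)).residualGaloisRepOf p hcard hker).IsUnramifiedAt q) :
    Root.UnramifiedMod p W q := fun A hA σ hσ x => LinearMap.congr_fun (h A hA σ hσ) x

end Fermat.Agent.ResidualLevel
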